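import Fermat.Agent.Ribet.H714.DictLevel
import Fermat.Agent.A2.Mod.H553.Fricke
import Fermat.Agent.A2.Mod.H372.S3Base
import Fermat.Agent.S35.G.SpecLevel

/-!
# RIBET row 38, WALL-p, CORE-OUT WILD, WildFrame piece **2-LEVEL MODEL** — core (helper49)

Two levels `E₁ ≤ E₂ ⊆ ℚ̄`, a place `A` of `ℚ̄`, `R_i = R_{E_i} = A ∩ E_i`, `F_i = F_{N,E_i}`.

* `incE`, `reHom`, `levelHom` : the inclusions `E₁ → E₂`, `R₁ → R₂`, `F₁ → F₂` (coefficientwise);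
* `algRE`, `algFE`, `algREFE` : the corresponding `Algebra` structures (reducible defs, to be
  installed with `letI`), and the two towers `tower_RE_RE_FE`, `tower_RE_FE_FE`
  (= the instance fields `algO₁O₂`, `algK₁K₂`, `algO₁K₂`, `towerO₁O₂K₂`, `towerO₁K₁K₂` of
  `H704.CoreOut.WildFrame`);
* `iota_levelHom`, `iotaN_levelHom` : `ι₂ ∘ levelHom = ι₁` (both versions of `ι` on main);
* `levelHom_algebraMap`, `levelHom_cE`, `levelHom_jE`, `levelHom_xE`;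
* `mem_vinf_iff` : `V∞(E₁) = levelHom⁻¹ V∞(E₂)`;  `levelHom_fricke` : `levelHom ∘ W₁ = W₂ ∘ levelHom`;
  `mem_vzero_iff` : `V₀(E₁) = levelHom⁻¹ V₀(E₂)`;
* `inW_iff` : `z ∈ w₁ V₁ ↔ levelHom z ∈ w₂ V₂` for valuation rings `V₁ = levelHom⁻¹ V₂` with
  uniformisers `w₁`, `w₂`;
* `cut_iff_inf`, `cut_iff_zero` : the components of the charts correspond (fields `comp₁`,
  `comp₂`);
* `levelHom_mem_chartAlg` : `levelHom (chartAlg y) ⊆ chartAlg (levelHom y)` (field `map_mem`);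
* `exists_unif` : `w₁ = η · w₂ ^ e`, `η` a unit, `0 < e` (field `unif`).
-/

set_option autoImplicit false
set_option synthInstance.maxHeartbeats 400000
set_option maxHeartbeats 1600000
set_option linter.unusedSectionVars false
set_option linter.style.haveILetI false

noncomputable section

namespace Fermat.Agent.Ribet.H49.TLM

open ModularCurve HahnSeries
open Fermat.Agent.A2.Mod

variable {E₁ E₂ : IntermediateField ℚ Qb} (h12 : E₁ ≤ E₂)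

/-! ## The level maps -/

/-- The inclusion `E₁ → E₂`. -/
def incE : ↥E₁ →+* ↥E₂ := (IntermediateField.inclusion h12).toRingHom

@[simp]
theorem coe_incE (e : ↥E₁) : ((incE h12 e : ↥E₂) : Qb) = (e : Qb) := rfl

theorem incE_injective : Function.Injective (incE h12) := (incE h12).injective

theorem algebraMap_comp_incE :
    (algebraMap ↥E₂ Qb).comp (incE h12) = algebraMap ↥E₁ Qb :=
  RingHom.ext fun _ => rfl

/-- The inclusion `R_{E₁} → R_{E₂}`. -/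
def reHom (A : ValuationSubring Qb) : ↥(RE A E₁) →+* ↥(RE A E₂) where
  toFun r := ⟨incE h12 (r : ↥E₁), r.2⟩
  map_one' := rfl
  map_mul' _ _ := rfl
  map_zero' := rfl
  map_add' _ _ := rfl

@[simp]
theorem coe_reHom (A : ValuationSubring Qb) (r : ↥(RE A E₁)) :
    ((reHom h12 A r : ↥(RE A E₂)) : ↥E₂) = incE h12 (r : ↥E₁) := rfl

theorem reHom_injective (A : ValuationSubring Qb) : Function.Injective (reHom h12 A) := by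
  intro a b h
  have h1 : incE h12 (a : ↥E₁) = incE h12 (b : ↥E₁) := congrArg Subtype.val h
  exact Subtype.ext (incE_injective h12 h1)

/-- The coefficientwise inclusion `F_{N,E₁} → F_{N,E₂}`. -/
def levelHom (N : ℕ) : ↥(FE E₁ N) →+* ↥(FE E₂ N) where
  toFun x := ⟨coeffMap (incE h12) (x : LaurentSeries ↥E₁),
    Fermat.Agent.S18.H602.coeffMap_mem_laurentBaseChange (modularFunctionFieldFull N) _ x.2⟩
  map_one' := Subtype.ext (map_one _)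
  map_mul' _ _ := Subtype.ext (map_mul _ _ _)
  map_zero' := Subtype.ext (map_zero _)
  map_add' _ _ := Subtype.ext (map_add _ _ _)

@[simp]
theorem coe_levelHom (N : ℕ) (x : ↥(FE E₁ N)) :
    ((levelHom h12 N x : ↥(FE E₂ N)) : LaurentSeries ↥E₂) =
      coeffMap (incE h12) (x : LaurentSeries ↥E₁) := rfl

theorem levelHom_injective (N : ℕ) : Function.Injective (levelHom h12 N) :=
  (levelHom h12 N).injective

theorem levelHom_ne_zero (N : ℕ) {x : ↥(FE E₁ N)} (hx : x ≠ 0) : levelHom h12 N x ≠ 0 :=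
  (map_ne_zero_iff _ (levelHom_injective h12 N)).2 hx

/-- `ι₂ ∘ levelHom = ι₁` (`T1.H669.iota`). -/
theorem iota_levelHom (N : ℕ) (x : ↥(FE E₁ N)) :
    Fermat.Agent.A2.T1.H669.iota E₂ (modularFunctionFieldFull N) (levelHom h12 N x) =
      Fermat.Agent.A2.T1.H669.iota E₁ (modularFunctionFieldFull N) x := by
  apply Subtype.ext
  show coeffMap (algebraMap ↥E₂ Qb) (coeffMap (incE h12) (x : LaurentSeries ↥E₁)) =
    coeffMap (algebraMap ↥E₁ Qb) (x : LaurentSeries ↥E₁)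
  rw [coeffMap_coeffMap, algebraMap_comp_incE]

/-- `ι₂ ∘ levelHom = ι₁` (`T1.H849.iota`, i.e. `H553.iotaN`). -/
theorem iotaN_levelHom (N : ℕ) [NeZero N] (x : ↥(FE E₁ N)) :
    H553.iotaN E₂ N (levelHom h12 N x) = H553.iotaN E₁ N x := by
  apply Subtype.ext
  show coeffMap (algebraMap ↥E₂ Qb) (coeffMap (incE h12) (x : LaurentSeries ↥E₁)) =
    coeffMap (algebraMap ↥E₁ Qb) (x : LaurentSeries ↥E₁)
  rw [coeffMap_coeffMap, algebraMap_comp_incE]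

/-- The `t`-expansion over `ℚ̄` does not change. -/
theorem coeffMap_levelHom (N : ℕ) (x : ↥(FE E₁ N)) :
    coeffMap (algebraMap ↥E₂ Qb) ((levelHom h12 N x : ↥(FE E₂ N)) : LaurentSeries ↥E₂) =
      coeffMap (algebraMap ↥E₁ Qb) (x : LaurentSeries ↥E₁) := by
  rw [coe_levelHom, coeffMap_coeffMap, algebraMap_comp_incE]

theorem levelHom_algebraMap (N : ℕ) (e : ↥E₁) :
    levelHom h12 N (algebraMap ↥E₁ ↥(FE E₁ N) e) = algebraMap ↥E₂ ↥(FE E₂ N) (incE h12 e) :=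
  Subtype.ext (Fermat.Agent.S18.H602.coeffMap_algebraMap' (incE h12) e)

theorem levelHom_cE (A : ValuationSubring Qb) (N : ℕ) (r : ↥(RE A E₁)) :
    levelHom h12 N (cE A E₁ N r) = cE A E₂ N (reHom h12 A r) :=
  levelHom_algebraMap h12 N (r : ↥E₁)

theorem levelHom_algebraMap_RE (A : ValuationSubring Qb) (N : ℕ) (r : ↥(RE A E₁)) :
    levelHom h12 N (algebraMap ↥(RE A E₁) ↥(FE E₁ N) r) =
      algebraMap ↥(RE A E₂) ↥(FE E₂ N) (reHom h12 A r) :=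
  levelHom_algebraMap h12 N (r : ↥E₁)

theorem levelHom_jE (N d : ℕ) [NeZero d] (hd : d ∣ N) :
    levelHom h12 N (jE E₁ N d hd) = jE E₂ N d hd := by
  apply Subtype.ext
  show coeffMap (incE h12) (coeffEmb (↥E₁) (qExpand ℚ d jq)) = coeffEmb (↥E₂) (qExpand ℚ d jq)
  exact Fermat.Agent.S18.H602.coeffMap_coeffEmb' (incE h12) _

theorem levelHom_xE (M q : ℕ) [NeZero M] [NeZero q] :
    levelHom h12 (M * q) (xE E₁ M q) = xE E₂ M q := by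
  unfold xE
  rw [map_mul, levelHom_jE, levelHom_jE]

/-! ## The algebra structures (install with `letI`) -/

/-- `Algebra R_{E₁} R_{E₂}`. -/
@[reducible] def algRE (A : ValuationSubring Qb) : Algebra ↥(RE A E₁) ↥(RE A E₂) :=
  (reHom h12 A).toAlgebra

/-- `Algebra F_{N,E₁} F_{N,E₂}`. -/
@[reducible] def algFE (N : ℕ) : Algebra ↥(FE E₁ N) ↥(FE E₂ N) :=
  (levelHom h12 N).toAlgebra

/-- `Algebra R_{E₁} F_{N,E₂}`. -/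
@[reducible] def algREFE (A : ValuationSubring Qb) (N : ℕ) : Algebra ↥(RE A E₁) ↥(FE E₂ N) :=
  ((algebraMap ↥(RE A E₂) ↥(FE E₂ N)).comp (reHom h12 A)).toAlgebra

theorem tower_RE_RE_FE (A : ValuationSubring Qb) (N : ℕ) :
    letI := algRE h12 A
    letI := algREFE h12 A N
    IsScalarTower ↥(RE A E₁) ↥(RE A E₂) ↥(FE E₂ N) := by
  letI := algRE h12 A
  letI := algREFE h12 A N
  exact IsScalarTower.of_algebraMap_eq fun _ => rfl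

theorem tower_RE_FE_FE (A : ValuationSubring Qb) (N : ℕ) :
    letI := algFE h12 N
    letI := algREFE h12 A N
    IsScalarTower ↥(RE A E₁) ↥(FE E₁ N) ↥(FE E₂ N) := by
  letI := algFE h12 N
  letI := algREFE h12 A N
  refine IsScalarTower.of_algebraMap_eq fun r => ?_
  exact (levelHom_algebraMap_RE h12 A N r).symm

/-! ## Valuation rings at the two levels -/

section Val

variable {A : ValuationSubring Qb} {N : ℕ}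

/-- `V∞(E₁) = levelHom⁻¹ V∞(E₂)`. -/
theorem mem_vinf_iff [NeZero N] (hd₁ : IsDiscreteValuationRing ↥(RE A E₁))
    (hd₂ : IsDiscreteValuationRing ↥(RE A E₂))
    {V₁ : ValuationSubring ↥(FE E₁ N)} {V₂ : ValuationSubring ↥(FE E₂ N)}
    (hV₁ : IsVinf A E₁ N V₁) (hV₂ : IsVinf A E₂ N V₂)
    {ℓ : ℕ} (hℓ : ℓ ≠ 0) (hA : A.LiesOverPrime ℓ) (z : ↥(FE E₁ N)) :
    z ∈ V₁ ↔ levelHom h12 N z ∈ V₂ := by
  rw [Fermat.Agent.Ribet.H714.mem_iff_iota_mem hd₁ hV₁ hℓ hA,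
    Fermat.Agent.Ribet.H714.mem_iff_iota_mem hd₂ hV₂ hℓ hA, iota_levelHom]

/-- `levelHom ∘ W₁ = W₂ ∘ levelHom` for the Fricke involutions. -/
theorem levelHom_fricke (hN : N ≠ 0)
    {W₁ : ↥(FE E₁ N) ≃ₐ[↥E₁] ↥(FE E₁ N)} {W₂ : ↥(FE E₂ N) ≃ₐ[↥E₂] ↥(FE E₂ N)}
    (hW₁ : IsFricke E₁ N W₁) (hW₂ : IsFricke E₂ N W₂) (z : ↥(FE E₁ N)) :
    levelHom h12 N (W₁ z) = W₂ (levelHom h12 N z) := by
  have h : (levelHom h12 N).comp (W₁ : ↥(FE E₁ N) →+* ↥(FE E₁ N)) =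
      (W₂ : ↥(FE E₂ N) →+* ↥(FE E₂ N)).comp (levelHom h12 N) := by
    refine H553.ringHom_ext_FE E₁ _ _ (fun e => ?_) (fun d _ hd => ?_)
    · show levelHom h12 N (W₁ (algebraMap ↥E₁ ↥(FE E₁ N) e)) =
        W₂ (levelHom h12 N (algebraMap ↥E₁ ↥(FE E₁ N) e))
      rw [AlgEquiv.commutes, levelHom_algebraMap, AlgEquiv.commutes]
    · show levelHom h12 N (W₁ (jE E₁ N d hd)) = W₂ (levelHom h12 N (jE E₁ N d hd))
      haveI : NeZero (N / d) := ⟨by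
        intro h0
        rcases (Nat.div_eq_zero_iff).mp h0 with h1 | h1
        · exact (NeZero.ne d) h1
        · exact absurd (Nat.le_of_dvd (Nat.pos_of_ne_zero hN) hd) (not_le.mpr h1)⟩
      rw [hW₁.1 d (N / d) hd (Nat.div_dvd_of_dvd hd) (Nat.mul_div_cancel' hd), levelHom_jE,
        levelHom_jE, hW₂.1 d (N / d) hd (Nat.div_dvd_of_dvd hd) (Nat.mul_div_cancel' hd)]
  exact congrArg (fun φ : ↥(FE E₁ N) →+* ↥(FE E₂ N) => φ z) h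

/-- `V₀(E₁) = levelHom⁻¹ V₀(E₂)`. -/
theorem mem_vzero_iff [NeZero N] (hd₁ : IsDiscreteValuationRing ↥(RE A E₁))
    (hd₂ : IsDiscreteValuationRing ↥(RE A E₂))
    {V₁ : ValuationSubring ↥(FE E₁ N)} {V₂ : ValuationSubring ↥(FE E₂ N)}
    (hV₁ : IsVinf A E₁ N V₁) (hV₂ : IsVinf A E₂ N V₂)
    {W₁ : ↥(FE E₁ N) ≃ₐ[↥E₁] ↥(FE E₁ N)} {W₂ : ↥(FE E₂ N) ≃ₐ[↥E₂] ↥(FE E₂ N)}
    (hW₁ : IsFricke E₁ N W₁) (hW₂ : IsFricke E₂ N W₂)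
    {ℓ : ℕ} (hℓ : ℓ ≠ 0) (hA : A.LiesOverPrime ℓ) (z : ↥(FE E₁ N)) :
    z ∈ V₁.comap (W₁ : ↥(FE E₁ N) →+* ↥(FE E₁ N)) ↔
      levelHom h12 N z ∈ V₂.comap (W₂ : ↥(FE E₂ N) →+* ↥(FE E₂ N)) := by
  rw [ValuationSubring.mem_comap, ValuationSubring.mem_comap]
  show W₁ z ∈ V₁ ↔ W₂ (levelHom h12 N z) ∈ V₂
  rw [← levelHom_fricke h12 (NeZero.ne N) hW₁ hW₂, mem_vinf_iff h12 hd₁ hd₂ hV₁ hV₂ hℓ hA]

/-- The uniformiser of `V` is a uniformiser of `V ∘ W` (`W` fixes the constants). -/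
theorem isUnif_comap {E : IntermediateField ℚ Qb} {V : ValuationSubring ↥(FE E N)}
    {ϖ : ↥(FE E N)} (hU : A2.H48.IsUnif V ϖ) (W : ↥(FE E N) ≃ₐ[↥E] ↥(FE E N)) (hW : W ϖ = ϖ) :
    A2.H48.IsUnif (V.comap (W : ↥(FE E N) →+* ↥(FE E N))) ϖ := by
  refine ⟨?_, ?_, ?_⟩
  · show W ϖ ∈ V
    rw [hW]
    exact hU.mem
  · show ¬ W ϖ⁻¹ ∈ V
    rw [map_inv₀, hW]
    exact hU.inv_not_mem
  · intro f hf hf'
    show W (f * ϖ⁻¹) ∈ V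
    rw [map_mul, map_inv₀, hW]
    refine hU.gen (W f) hf ?_
    intro h
    apply hf'
    show W f⁻¹ ∈ V
    rw [map_inv₀]
    exact h

end Val

/-! ## Cuts -/

section Cut

variable {A : ValuationSubring Qb} {N : ℕ}

/-- For valuation rings `V₁ = levelHom⁻¹ V₂` with uniformisers `ϖ₁`, `ϖ₂` such that
`levelHom ϖ₁ = η · ϖ₂ ^ e`, `η ∈ V₂`, `0 < e`:  `z ∈ ϖ₁ V₁ ↔ levelHom z ∈ ϖ₂ V₂`. -/
theorem mul_inv_mem_iff {V₁ : ValuationSubring ↥(FE E₁ N)} {V₂ : ValuationSubring ↥(FE E₂ N)}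
    (hV : ∀ z : ↥(FE E₁ N), z ∈ V₁ ↔ levelHom h12 N z ∈ V₂)
    {ϖ₁ : ↥(FE E₁ N)} {ϖ₂ : ↥(FE E₂ N)} (hU₁ : A2.H48.IsUnif V₁ ϖ₁) (hU₂ : A2.H48.IsUnif V₂ ϖ₂)
    {η : ↥(FE E₂ N)} {e : ℕ} (hη : η ∈ V₂) (he : 0 < e)
    (hϖ : levelHom h12 N ϖ₁ = η * ϖ₂ ^ e) (z : ↥(FE E₁ N)) :
    z * ϖ₁⁻¹ ∈ V₁ ↔ levelHom h12 N z * ϖ₂⁻¹ ∈ V₂ := by
  have hϖ₂0 : ϖ₂ ≠ 0 := by
    rintro rfl
    exact hU₂.inv_not_mem (by rw [inv_zero]; exact zero_mem _)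
  have hϖ₁0 : ϖ₁ ≠ 0 := by
    rintro rfl
    exact hU₁.inv_not_mem (by rw [inv_zero]; exact zero_mem _)
  constructor
  · intro h
    have h1 : levelHom h12 N (z * ϖ₁⁻¹) ∈ V₂ := (hV _).1 h
    rw [map_mul, map_inv₀] at h1
    have hL0 : levelHom h12 N ϖ₁ ≠ 0 := levelHom_ne_zero h12 N hϖ₁0
    obtain ⟨e', rfl⟩ : ∃ e', e = e' + 1 := ⟨e - 1, by omega⟩
    have h2 : levelHom h12 N z * ϖ₂⁻¹ =
        levelHom h12 N z * (levelHom h12 N ϖ₁)⁻¹ * (η * ϖ₂ ^ e') := by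
      have h3 : levelHom h12 N ϖ₁ = η * ϖ₂ ^ e' * ϖ₂ := by rw [hϖ, pow_succ, mul_assoc]
      have h4 : η * ϖ₂ ^ e' ≠ 0 := by
        intro h0
        rw [h3, h0, zero_mul] at hL0
        exact hL0 rfl
      have hη0 : η ≠ 0 := left_ne_zero_of_mul h4
      have hpe : ϖ₂ ^ e' ≠ 0 := pow_ne_zero _ hϖ₂0
      rw [h3]
      field_simp
    rw [h2]
    exact V₂.mul_mem _ _ h1 (V₂.mul_mem _ _ hη (pow_mem hU₂.mem e'))
  · intro h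
    by_contra hz
    have hz0 : z ≠ 0 := by
      rintro rfl
      exact hz (by rw [zero_mul]; exact zero_mem _)
    have h1 : (z * ϖ₁⁻¹)⁻¹ ∈ V₁ := (V₁.mem_or_inv_mem _).resolve_left hz
    have h2 : (z * ϖ₁⁻¹)⁻¹ * ϖ₁⁻¹ ∈ V₁ := hU₁.gen _ h1 (by rwa [inv_inv])
    have h3 : (z * ϖ₁⁻¹)⁻¹ * ϖ₁⁻¹ = z⁻¹ := by
      field_simp
    rw [h3] at h2
    have h4 : levelHom h12 N z⁻¹ ∈ V₂ := (hV _).1 h2
    rw [map_inv₀] at h4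
    have h5 := V₂.mul_mem _ _ h h4
    have hLz : levelHom h12 N z ≠ 0 := levelHom_ne_zero h12 N hz0
    have h6 : levelHom h12 N z * ϖ₂⁻¹ * (levelHom h12 N z)⁻¹ = ϖ₂⁻¹ := by
      field_simp
    rw [h6] at h5
    exact hU₂.inv_not_mem h5

/-- `w₁ = η · w₂ ^ e` in `R_{E₂}` with `η` a unit and `0 < e`  (field `unif` of `WildFrame`). -/
theorem exists_unif (hd₂ : IsDiscreteValuationRing ↥(RE A E₂)) {w₁ : ↥(RE A E₁)}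
    {w₂ : ↥(RE A E₂)} (hw₁ : Irreducible w₁) (hw₂ : Irreducible w₂) :
    ∃ (η : ↥(RE A E₂)) (e : ℕ), IsUnit η ∧ 0 < e ∧ reHom h12 A w₁ = η * w₂ ^ e := by
  haveI := hd₂
  have h0 : reHom h12 A w₁ ≠ 0 := by
    intro h
    apply hw₁.ne_zero
    apply reHom_injective h12 A
    rw [h, map_zero]
  obtain ⟨n, u, hu⟩ := IsDiscreteValuationRing.eq_unit_mul_pow_irreducible h0 hw₂
  refine ⟨u, n, u.isUnit, ?_, hu⟩
  rcases Nat.eq_zero_or_pos n with hn | hn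
  · exfalso
    subst hn
    rw [pow_zero, mul_one] at hu
    -- `w₁` would be a unit of `R_{E₁}`
    apply hw₁.not_isUnit
    have hw0 : (w₁ : ↥E₁) ≠ 0 := fun h => hw₁.ne_zero (Subtype.ext h)
    have hinv : ((u⁻¹ : (↥(RE A E₂))ˣ) : ↥(RE A E₂)) * reHom h12 A w₁ = 1 := by
      rw [hu]
      simp
    -- the inverse of `w₁` in `ℚ̄` lies in `A`
    have h1 : (((w₁ : ↥E₁) : Qb))⁻¹ ∈ A := by
      have h2 : ((((u⁻¹ : (↥(RE A E₂))ˣ) : ↥(RE A E₂)) : ↥E₂) : Qb) * ((w₁ : ↥E₁) : Qb) = 1 := by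
        have := congrArg (fun r : ↥(RE A E₂) => ((r : ↥E₂) : Qb)) hinv
        simpa using this
      have h3 : (((w₁ : ↥E₁) : Qb))⁻¹ = ((((u⁻¹ : (↥(RE A E₂))ˣ) : ↥(RE A E₂)) : ↥E₂) : Qb) :=
        (eq_inv_of_mul_eq_one_left h2).symm
      rw [h3]
      exact ((u⁻¹ : (↥(RE A E₂))ˣ) : ↥(RE A E₂)).2
    have h6 : ((w₁ : ↥E₁))⁻¹ ∈ RE A E₁ := by
      show (((w₁ : ↥E₁)⁻¹ : ↥E₁) : Qb) ∈ A
      simpa using h1
    refine ⟨⟨w₁, ⟨_, h6⟩, ?_, ?_⟩, rfl⟩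
    · exact Subtype.ext (mul_inv_cancel₀ hw0)
    · exact Subtype.ext (inv_mul_cancel₀ hw0)
  · exact hn

/-- `z ∈ w₁ V∞(E₁) ↔ levelHom z ∈ w₂ V∞(E₂)`. -/
theorem inW_vinf_iff [NeZero N] (hd₁ : IsDiscreteValuationRing ↥(RE A E₁))
    (hd₂ : IsDiscreteValuationRing ↥(RE A E₂))
    {w₁ : ↥(RE A E₁)} {w₂ : ↥(RE A E₂)} (hw₁ : Irreducible w₁) (hw₂ : Irreducible w₂)
    {V₁ : ValuationSubring ↥(FE E₁ N)} {V₂ : ValuationSubring ↥(FE E₂ N)}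
    (hV₁ : IsVinf A E₁ N V₁) (hV₂ : IsVinf A E₂ N V₂)
    {ℓ : ℕ} (hℓ : ℓ ≠ 0) (hA : A.LiesOverPrime ℓ) (z : ↥(FE E₁ N)) :
    InW A E₁ N V₁ w₁ z ↔ InW A E₂ N V₂ w₂ (levelHom h12 N z) := by
  obtain ⟨η, e, -, he, hηe⟩ := exists_unif h12 hd₂ hw₁ hw₂
  have hU₁ := (H553.vinfBasic A E₁ w₁ N (NeZero.ne N) hd₁ hw₁ V₁ hV₁).1
  obtain ⟨hU₂, hc₂, -⟩ := H553.vinfBasic A E₂ w₂ N (NeZero.ne N) hd₂ hw₂ V₂ hV₂
  refine mul_inv_mem_iff h12 (mem_vinf_iff h12 hd₁ hd₂ hV₁ hV₂ hℓ hA) hU₁ hU₂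
    (η := cE A E₂ N η) (e := e) ((hc₂ _).2 η.2) he ?_ z
  rw [levelHom_cE, hηe]
  show algebraMap ↥E₂ ↥(FE E₂ N) ((η * w₂ ^ e : ↥(RE A E₂)) : ↥E₂) = _
  rw [cE, cE, ← map_pow, ← map_mul]
  rfl

/-- `z ∈ w₁ V₀(E₁) ↔ levelHom z ∈ w₂ V₀(E₂)`. -/
theorem inW_vzero_iff [NeZero N] (hd₁ : IsDiscreteValuationRing ↥(RE A E₁))
    (hd₂ : IsDiscreteValuationRing ↥(RE A E₂))
    {w₁ : ↥(RE A E₁)} {w₂ : ↥(RE A E₂)} (hw₁ : Irreducible w₁) (hw₂ : Irreducible w₂)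
    {V₁ : ValuationSubring ↥(FE E₁ N)} {V₂ : ValuationSubring ↥(FE E₂ N)}
    (hV₁ : IsVinf A E₁ N V₁) (hV₂ : IsVinf A E₂ N V₂)
    {W₁ : ↥(FE E₁ N) ≃ₐ[↥E₁] ↥(FE E₁ N)} {W₂ : ↥(FE E₂ N) ≃ₐ[↥E₂] ↥(FE E₂ N)}
    (hW₁ : IsFricke E₁ N W₁) (hW₂ : IsFricke E₂ N W₂)
    {ℓ : ℕ} (hℓ : ℓ ≠ 0) (hA : A.LiesOverPrime ℓ) (z : ↥(FE E₁ N)) :
    InW A E₁ N (V₁.comap (W₁ : ↥(FE E₁ N) →+* ↥(FE E₁ N))) w₁ z ↔
      InW A E₂ N (V₂.comap (W₂ : ↥(FE E₂ N) →+* ↥(FE E₂ N))) w₂ (levelHom h12 N z) := by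
  obtain ⟨η, e, -, he, hηe⟩ := exists_unif h12 hd₂ hw₁ hw₂
  have hU₁ := (H553.vinfBasic A E₁ w₁ N (NeZero.ne N) hd₁ hw₁ V₁ hV₁).1
  obtain ⟨hU₂, hc₂, -⟩ := H553.vinfBasic A E₂ w₂ N (NeZero.ne N) hd₂ hw₂ V₂ hV₂
  have hU₁' := isUnif_comap hU₁ W₁ (W₁.commutes (w₁ : ↥E₁))
  have hU₂' := isUnif_comap hU₂ W₂ (W₂.commutes (w₂ : ↥E₂))
  refine mul_inv_mem_iff h12 (mem_vzero_iff h12 hd₁ hd₂ hV₁ hV₂ hW₁ hW₂ hℓ hA) hU₁' hU₂'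
    (η := cE A E₂ N η) (e := e) ?_ he ?_ z
  · show W₂ (cE A E₂ N η) ∈ V₂
    have : W₂ (cE A E₂ N η) = cE A E₂ N η := W₂.commutes (η : ↥E₂)
    rw [this]
    exact (hc₂ _).2 η.2
  · rw [levelHom_cE, hηe]
    show algebraMap ↥E₂ ↥(FE E₂ N) ((η * w₂ ^ e : ↥(RE A E₂)) : ↥E₂) = _
    rw [cE, cE, ← map_pow, ← map_mul]
    rfl

end Cut

/-! ## Charts -/

section Chart

variable {A : ValuationSubring Qb} {N : ℕ}

/-- `levelHom (chartAlg y) ⊆ chartAlg (levelHom y)`  (field `map_mem` of `WildFrame`). -/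
theorem levelHom_mem_chartAlg {y b : ↥(FE E₁ N)} (hb : b ∈ chartAlg A E₁ N y) :
    levelHom h12 N b ∈ chartAlg A E₂ N (levelHom h12 N y) := by
  rw [H372.mem_chartAlg_iff] at hb ⊢
  obtain ⟨p, hp, hpb⟩ := hb
  have hcomp : (Polynomial.eval₂RingHom (algebraMap ↥(RE A E₂) ↥(FE E₂ N))
      (levelHom h12 N y)).comp (Polynomial.mapRingHom (reHom h12 A)) =
      (levelHom h12 N).comp (Polynomial.eval₂RingHom (algebraMap ↥(RE A E₁) ↥(FE E₁ N)) y) := by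
    apply Polynomial.ringHom_ext
    · intro r
      simp only [RingHom.comp_apply, Polynomial.coe_mapRingHom, Polynomial.map_C,
        Polynomial.coe_eval₂RingHom, Polynomial.eval₂_C]
      exact (levelHom_algebraMap_RE h12 A N r).symm
    · simp only [RingHom.comp_apply, Polynomial.coe_mapRingHom, Polynomial.map_X,
        Polynomial.coe_eval₂RingHom, Polynomial.eval₂_X]
  refine ⟨p.map (Polynomial.mapRingHom (reHom h12 A)), hp.map _, ?_⟩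
  rw [Polynomial.eval₂_map, hcomp, ← Polynomial.hom_eval₂, hpb, map_zero]

/-- The `∞`-components correspond: for cuts `p₁ = B₁ ∩ w₁ V∞(E₁)`, `p₂ = B₂ ∩ w₂ V∞(E₂)`. -/
theorem cut_iff_inf [NeZero N] (hd₁ : IsDiscreteValuationRing ↥(RE A E₁))
    (hd₂ : IsDiscreteValuationRing ↥(RE A E₂))
    {w₁ : ↥(RE A E₁)} {w₂ : ↥(RE A E₂)} (hw₁ : Irreducible w₁) (hw₂ : Irreducible w₂)
    {V₁ : ValuationSubring ↥(FE E₁ N)} {V₂ : ValuationSubring ↥(FE E₂ N)}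
    (hV₁ : IsVinf A E₁ N V₁) (hV₂ : IsVinf A E₂ N V₂)
    {ℓ : ℕ} (hℓ : ℓ ≠ 0) (hA : A.LiesOverPrime ℓ)
    {B₁ : Subalgebra ↥(RE A E₁) ↥(FE E₁ N)} {B₂ : Subalgebra ↥(RE A E₂) ↥(FE E₂ N)}
    {p₁ : Ideal B₁} {p₂ : Ideal B₂}
    (hc₁ : IsCut A E₁ N w₁ V₁ B₁ p₁) (hc₂ : IsCut A E₂ N w₂ V₂ B₂ p₂)
    (b : B₁) (b' : B₂) (hbb' : (b' : ↥(FE E₂ N)) = levelHom h12 N (b : ↥(FE E₁ N))) :
    b' ∈ p₂ ↔ b ∈ p₁ := by
  rw [hc₁ b, hc₂ b', hbb']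
  exact (inW_vinf_iff h12 hd₁ hd₂ hw₁ hw₂ hV₁ hV₂ hℓ hA _).symm

/-- The `0`-components correspond. -/
theorem cut_iff_zero [NeZero N] (hd₁ : IsDiscreteValuationRing ↥(RE A E₁))
    (hd₂ : IsDiscreteValuationRing ↥(RE A E₂))
    {w₁ : ↥(RE A E₁)} {w₂ : ↥(RE A E₂)} (hw₁ : Irreducible w₁) (hw₂ : Irreducible w₂)
    {V₁ : ValuationSubring ↥(FE E₁ N)} {V₂ : ValuationSubring ↥(FE E₂ N)}
    (hV₁ : IsVinf A E₁ N V₁) (hV₂ : IsVinf A E₂ N V₂)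
    {W₁ : ↥(FE E₁ N) ≃ₐ[↥E₁] ↥(FE E₁ N)} {W₂ : ↥(FE E₂ N) ≃ₐ[↥E₂] ↥(FE E₂ N)}
    (hW₁ : IsFricke E₁ N W₁) (hW₂ : IsFricke E₂ N W₂)
    {ℓ : ℕ} (hℓ : ℓ ≠ 0) (hA : A.LiesOverPrime ℓ)
    {B₁ : Subalgebra ↥(RE A E₁) ↥(FE E₁ N)} {B₂ : Subalgebra ↥(RE A E₂) ↥(FE E₂ N)}
    {p₁ : Ideal B₁} {p₂ : Ideal B₂}
    (hc₁ : IsCut A E₁ N w₁ (V₁.comap (W₁ : ↥(FE E₁ N) →+* ↥(FE E₁ N))) B₁ p₁)
    (hc₂ : IsCut A E₂ N w₂ (V₂.comap (W₂ : ↥(FE E₂ N) →+* ↥(FE E₂ N))) B₂ p₂)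
    (b : B₁) (b' : B₂) (hbb' : (b' : ↥(FE E₂ N)) = levelHom h12 N (b : ↥(FE E₁ N))) :
    b' ∈ p₂ ↔ b ∈ p₁ := by
  rw [hc₁ b, hc₂ b', hbb']
  exact (inW_vzero_iff h12 hd₁ hd₂ hw₁ hw₂ hV₁ hV₂ hW₁ hW₂ hℓ hA _).symm

end Chart

end Fermat.Agent.Ribet.H49.TLM

end
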