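import Fermat.Agent.Ribet.H49.TwoLevelModel
import Fermat.Agent.Ribet.H704.WildSpec

/-!
# RIBET row 38, WALL-p, CORE-OUT WILD: a constructor of `H704.CoreOut.WildFrame` over the
# 2-LEVEL MODEL (helper49)

`TLM.mkFrame` : for levels `E₁ ≤ E₂` with `Setting`, `E₁` good, ANY Gauss valuations / Fricke
involutions and charts `c₁`, `c₂` cut by them, the fields
`O₁ E₁ K₁` (+ all instances), `algO₁O₂ algK₁K₂ algO₁K₂` (+ towers), `algClosed₁ w₁ x₁ B₁ ctx₁ c₁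
map_mem comp₁ comp₂ unif` of the frame are filled in from `TwoLevelModel.lean`
(carriers `O₁ = R_{E₁}`, `K₁ = F_{N,E₁}`, `algebraMap K₁ K₂ = TLM.levelHom`,
`algebraMap O₁ O₂ = TLM.reHom`); ALL the other fields (unit pair, `f_t`, covers, PER output) are
arguments, in the shape they take for these carriers.  This is the shape test of the model piece
and an adapter for the assembly of `WildFrameStatement`.
-/

set_option autoImplicit false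
set_option synthInstance.maxHeartbeats 400000
set_option maxHeartbeats 1600000
set_option linter.unusedSectionVars false
set_option linter.style.haveILetI false

noncomputable section

namespace Fermat.Agent.Ribet.H49.TLM

open ModularCurve HahnSeries
open Fermat.Agent.A2.Mod
open Fermat.Agent.Ribet.H704 Fermat.Agent.Ribet.H704.CoreOut

variable {A : ValuationSubring Qb} {M q : ℕ} [NeZero M] [NeZero q]
variable {E₁ E₂ : IntermediateField ℚ Qb} (h12 : E₁ ≤ E₂)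
  {w₁ : ↥(RE A E₁)} {w₂ : ↥(RE A E₂)}

/-- **The frame over the 2-level model**: model fields from `TLM.twoLevelModel`, everything
else as input. -/
def mkFrame (hS₁ : Setting A E₁ M q w₁) (hS₂ : Setting A E₂ M q w₂)
    (hG₁ : Fermat.Agent.A2.GoodField A E₁)
    {V₁ : ValuationSubring ↥(FE E₁ (M * q))} {V₂ : ValuationSubring ↥(FE E₂ (M * q))}
    {W₁ : ↥(FE E₁ (M * q)) ≃ₐ[↥E₁] ↥(FE E₁ (M * q))}
    {W₂ : ↥(FE E₂ (M * q)) ≃ₐ[↥E₂] ↥(FE E₂ (M * q))}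
    (hV₁ : IsVinf A E₁ (M * q) V₁) (hV₂ : IsVinf A E₂ (M * q) V₂)
    (hW₁ : IsFricke E₁ (M * q) W₁) (hW₂ : IsFricke E₂ (M * q) W₂)
    (c₁ : Fermat.Agent.A2.SSChart w₁ (chartAlg A E₁ (M * q) (xE E₁ M q)))
    (c₂ : Fermat.Agent.A2.SSChart w₂ (chartAlg A E₂ (M * q) (xE E₂ M q)))
    (hc₁ : Fermat.Agent.S35.G.CutBy w₁ (chartAlg A E₁ (M * q) (xE E₁ M q)) c₁ V₁
      (V₁.comap (W₁ : ↥(FE E₁ (M * q)) →+* ↥(FE E₁ (M * q)))))
    (hc₂ : Fermat.Agent.S35.G.CutBy w₂ (chartAlg A E₂ (M * q) (xE E₂ M q)) c₂ V₂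
      (V₂.comap (W₂ : ↥(FE E₂ (M * q)) →+* ↥(FE E₂ (M * q)))))
    (f₂ D₂ : ↥(FE E₂ (M * q)))
    -- the covers
    (L₁ L₂ : Type) [Field L₁] [Field L₂]
    [Algebra ↥(FE E₁ (M * q)) L₁] [Algebra ↥E₁ L₁] [IsScalarTower ↥E₁ ↥(FE E₁ (M * q)) L₁]
    [FiniteDimensional ↥(FE E₁ (M * q)) L₁] [IsGalois ↥(FE E₁ (M * q)) L₁]
    [Algebra ↥(FE E₂ (M * q)) L₂] [Algebra L₁ L₂]
    (aK₁L₂ : Algebra ↥(FE E₁ (M * q)) L₂)
    (t1 : letI := algFE h12 (M * q); IsScalarTower ↥(FE E₁ (M * q)) ↥(FE E₂ (M * q)) L₂)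
    (t2 : IsScalarTower ↥(FE E₁ (M * q)) L₁ L₂)
    (hp_mem : (q : ↥(RE A E₁)) ∈ @IsLocalRing.maximalIdeal ↥(RE A E₁) _
      (@IsDiscreteValuationRing.toIsLocalRing _ _ _ hS₁.dvr))
    (ζ : ↥(RE A E₁)) (hζ : IsPrimitiveRoot ζ q)
    (Nn : ℕ) (D D' : chartAlg A E₁ (M * q) (xE E₁ M q)) (hN : Nat.Coprime Nn q)
    (hDD : D * D' = algebraMap ↥(RE A E₁) (chartAlg A E₁ (M * q) (xE E₁ M q)) w₁ ^ Nn)
    (hD : D ∉ c₁.p₁) (hD' : D' ∉ c₁.p₂)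
    (hD₂ : D₂ = levelHom h12 (M * q) (D : ↥(FE E₁ (M * q))))
    (ft : ↥(FE E₁ (M * q))) (hft0 : ft ≠ 0)
    (hft_div : Fermat.Agent.A2.DivisibleDiv (↥E₁) q ft)
    (hft_split₁ : I6.SplitAt ↥(FE E₁ (M * q)) c₁.p₁
      (algebraMap ↥(RE A E₁) (chartAlg A E₁ (M * q) (xE E₁ M q)) w₁) q ft)
    (hft_split₂ : I6.SplitAt ↥(FE E₁ (M * q)) c₁.p₂
      (algebraMap ↥(RE A E₁) (chartAlg A E₁ (M * q) (xE E₁ M q)) w₁) q ft)
    (h : L₁) (hh : h ^ q = algebraMap ↥(FE E₁ (M * q)) L₁ ft)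
    (hadj₁ : IntermediateField.adjoin ↥(FE E₁ (M * q)) ({h} : Set L₁) = ⊤)
    (hadj₂ : IntermediateField.adjoin ↥(FE E₂ (M * q)) ({algebraMap L₁ L₂ h} : Set L₂) = ⊤)
    (τ : L₁ ≃ₐ[↥(FE E₁ (M * q))] L₁)
    (hτ : ∀ g : L₁ ≃ₐ[↥(FE E₁ (M * q))] L₁, ∃ j : ℕ, g = τ ^ j)
    (f' G : L₁) (c : ↥(RE A E₁)) (hf' : f' ≠ 0) (hG : G ≠ 0) (hc : IsUnit c)
    (hper : τ f' = f' * algebraMap ↥(FE E₁ (M * q)) L₁
      (algebraMap ↥(RE A E₁) ↥(FE E₁ (M * q)) c) * G ^ q)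
    (hf'_div : Fermat.Agent.A2.DivisibleDiv (↥E₁) q f')
    (lc : ↥E₂) (b : L₂) (hlc : lc ≠ 0) (hb : b ≠ 0)
    (hf₂ : algebraMap ↥(FE E₂ (M * q)) L₂ f₂ =
      algebraMap ↥(FE E₂ (M * q)) L₂ (algebraMap ↥E₂ ↥(FE E₂ (M * q)) lc) *
        algebraMap L₁ L₂ f' * b ^ q) :
    WildFrame q ↥(RE A E₂) ↥E₂ ↥(FE E₂ (M * q)) w₂ (chartAlg A E₂ (M * q) (xE E₂ M q)) c₂ f₂ D₂ :=
  letI := hS₁.dvr
  letI := algRE h12 A
  letI := algFE h12 (M * q)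
  letI := algREFE h12 A (M * q)
  haveI := tower_RE_RE_FE h12 A (M * q)
  haveI := tower_RE_FE_FE h12 A (M * q)
  have hm := twoLevelModel h12 hS₁ hS₂ hV₁ hV₂ hW₁ hW₂ c₁ c₂ hc₁ hc₂
  { O₁ := ↥(RE A E₁)
    E₁ := ↥E₁
    K₁ := ↥(FE E₁ (M * q))
    L₁ := L₁
    L₂ := L₂
    algK₁L₂ := aK₁L₂
    towerK₁K₂L₂ := t1
    towerK₁L₁L₂ := t2
    algClosed₁ := hG₁.algClosed
    w₁ := w₁
    x₁ := xE E₁ M q
    B₁ := chartAlg A E₁ (M * q) (xE E₁ M q)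
    ctx₁ := chartCtx hS₁
    c₁ := c₁
    map_mem := hm.1
    comp₁ := hm.2.1
    comp₂ := hm.2.2.1
    unif := hm.2.2.2
    hp_mem := hp_mem
    ζ := ζ
    hζ := hζ
    N := Nn
    D := D
    D' := D'
    hN := hN
    hDD := hDD
    hD := hD
    hD' := hD'
    hD₂ := hD₂
    ft := ft
    hft0 := hft0
    hft_div := hft_div
    hft_split₁ := hft_split₁
    hft_split₂ := hft_split₂
    h := h
    hh := hh
    hadj₁ := hadj₁
    hadj₂ := hadj₂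
    τ := τ
    hτ := hτ
    f' := f'
    G := G
    c := c
    hf' := hf'
    hG := hG
    hc := hc
    hper := hper
    hf'_div := hf'_div
    lc := lc
    b := b
    hlc := hlc
    hb := hb
    hf₂ := hf₂ }

end Fermat.Agent.Ribet.H49.TLM

end
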