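import Fermat.Agent.Ribet.H49.TwoLevelCore
import Fermat.Agent.S35.G.H862.Model

/-!
# RIBET row 38, WALL-p, CORE-OUT WILD, WildFrame piece **2-LEVEL MODEL** (helper49)

Good levels `E₁ ≤ E₂` for the place `A | q`, level `N = M * q`, `Setting A E_i M q w_i`.
`B_i = chartAlg A E_i (M * q) (xE E_i M q)` the finite charts of the standard coordinate.

* `chartCtx` : `Alg.ChartCtx E w (xE E M q) (chartAlg …)` at any level with `Setting`
  (fields `ctx₁` of `H704.CoreOut.WildFrame`, and the `ChartCtx` conjunct of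
  `WildFrameStatement`);
* `exists_chart` : for ANY `V` (`IsVinf`) and `W` (`IsFricke`) the semistable chart `c` of `B`
  with `CutBy w B c V (V ∘ W)`  (`S35.G.H862.exists_chart_cutBy` with the good reduction at level
  `M` plugged in);
* **`twoLevelModel`** : for ANY `V_i`, `W_i` and ANY charts `c_i` cut by them:
  `map_mem`, `comp₁`, `comp₂`, `unif` in the EXACT shape of the fields of `WildFrame`
  (`algebraMap K₁ K₂ = levelHom`, `algebraMap O₁ O₂ = reHom`, definitionally, for the algebra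
  structures `TLM.algFE`, `TLM.algRE` of `TwoLevelCore.lean`);
* **`exists_twoLevelModel`** : the same with the charts produced.
-/

set_option autoImplicit false
set_option synthInstance.maxHeartbeats 400000
set_option maxHeartbeats 1600000
set_option linter.unusedSectionVars false
set_option linter.style.haveILetI false

noncomputable section

namespace Fermat.Agent.Ribet.H49.TLM

open ModularCurve HahnSeries
open Fermat.Agent.A2.Mod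

variable {A : ValuationSubring Qb} {M q : ℕ} [NeZero M] [NeZero q]

/-- The standing hypotheses of ALG on the finite chart of the standard coordinate. -/
theorem chartCtx {E : IntermediateField ℚ Qb} {w : ↥(RE A E)} (hS : Setting A E M q w) :
    Fermat.Agent.A2.Alg.ChartCtx (↥E) w (xE E M q) (chartAlg A E (M * q) (xE E M q)) := by
  obtain ⟨hx, hfr, hconst⟩ := H31.deg E M q hS.q_prime hS.q_not_dvd
  have hpos : 0 < Module.finrank
      (IntermediateField.adjoin ↥E ({xE E M q} : Set ↥(FE E (M * q)))) ↥(FE E (M * q)) := by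
    rw [hfr]
    have h1 := dedekindPsi_pos_of_ne_zero M hS.M_ne_zero
    have h2 : 0 < q + 1 := Nat.succ_pos q
    positivity
  have hfin : FiniteDimensional
      (IntermediateField.adjoin ↥E ({xE E M q} : Set ↥(FE E (M * q)))) ↥(FE E (M * q)) :=
    Module.finite_of_finrank_pos hpos
  exact ⟨hS.unif, hx, hfin, hconst, fun _ => Iff.rfl⟩

/-- The semistable finite chart cut by ANY given `V∞`, `W`. -/
theorem exists_chart {E : IntermediateField ℚ Qb} {w : ↥(RE A E)} (hS : Setting A E M q w)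
    (hAux : Fermat.Agent.S35.G.HasAux M q)
    {V : ValuationSubring ↥(FE E (M * q))} {W : ↥(FE E (M * q)) ≃ₐ[↥E] ↥(FE E (M * q))}
    (hV : IsVinf A E (M * q) V) (hW : IsFricke E (M * q) W) :
    ∃ c : Fermat.Agent.A2.SSChart w (chartAlg A E (M * q) (xE E M q)),
      Fermat.Agent.S35.G.CutBy w (chartAlg A E (M * q) (xE E M q)) c V
        (V.comap (W : ↥(FE E (M * q)) →+* ↥(FE E (M * q)))) := by
  obtain ⟨VM, hVM⟩ := H553.vinfExists A E M hS.M_ne_zero hS.dvr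
  obtain ⟨hg₁, -⟩ := H216.goodRedHyp_of_dvr A E M hS.q_prime hS.q_not_dvd hAux.1 hAux.2
    hS.lies_over hS.dvr w VM hS.unif hVM
  exact Fermat.Agent.S35.G.H862.exists_chart_cutBy hS (Fermat.Agent.S35.G.H862.s1 A E M q w)
    (H142.s2 A E M q w) (Fermat.Agent.S35.G.H862.s3 A E M q w) VM V W hVM hV hW _ _
    (Or.inl ⟨rfl, rfl⟩) hg₁

section Two

variable {E₁ E₂ : IntermediateField ℚ Qb} (h12 : E₁ ≤ E₂)
  {w₁ : ↥(RE A E₁)} {w₂ : ↥(RE A E₂)}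

/-- **2-LEVEL MODEL**, for given valuation rings, Fricke involutions and charts cut by them:
the fields `map_mem`, `comp₁`, `comp₂`, `unif` of `H704.CoreOut.WildFrame`. -/
theorem twoLevelModel (hS₁ : Setting A E₁ M q w₁) (hS₂ : Setting A E₂ M q w₂)
    {V₁ : ValuationSubring ↥(FE E₁ (M * q))} {V₂ : ValuationSubring ↥(FE E₂ (M * q))}
    {W₁ : ↥(FE E₁ (M * q)) ≃ₐ[↥E₁] ↥(FE E₁ (M * q))}
    {W₂ : ↥(FE E₂ (M * q)) ≃ₐ[↥E₂] ↥(FE E₂ (M * q))}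
    (hV₁ : IsVinf A E₁ (M * q) V₁) (hV₂ : IsVinf A E₂ (M * q) V₂)
    (hW₁ : IsFricke E₁ (M * q) W₁) (hW₂ : IsFricke E₂ (M * q) W₂)
    (c₁ : Fermat.Agent.A2.SSChart w₁ (chartAlg A E₁ (M * q) (xE E₁ M q)))
    (c₂ : Fermat.Agent.A2.SSChart w₂ (chartAlg A E₂ (M * q) (xE E₂ M q)))
    (hc₁ : Fermat.Agent.S35.G.CutBy w₁ (chartAlg A E₁ (M * q) (xE E₁ M q)) c₁ V₁
      (V₁.comap (W₁ : ↥(FE E₁ (M * q)) →+* ↥(FE E₁ (M * q)))))
    (hc₂ : Fermat.Agent.S35.G.CutBy w₂ (chartAlg A E₂ (M * q) (xE E₂ M q)) c₂ V₂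
      (V₂.comap (W₂ : ↥(FE E₂ (M * q)) →+* ↥(FE E₂ (M * q))))) :
    (∀ b ∈ chartAlg A E₁ (M * q) (xE E₁ M q),
        levelHom h12 (M * q) b ∈ chartAlg A E₂ (M * q) (xE E₂ M q)) ∧
    (∀ (b : chartAlg A E₁ (M * q) (xE E₁ M q)) (b' : chartAlg A E₂ (M * q) (xE E₂ M q)),
        (b' : ↥(FE E₂ (M * q))) = levelHom h12 (M * q) (b : ↥(FE E₁ (M * q))) →
        (b' ∈ c₂.p₁ ↔ b ∈ c₁.p₁)) ∧
    (∀ (b : chartAlg A E₁ (M * q) (xE E₁ M q)) (b' : chartAlg A E₂ (M * q) (xE E₂ M q)),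
        (b' : ↥(FE E₂ (M * q))) = levelHom h12 (M * q) (b : ↥(FE E₁ (M * q))) →
        (b' ∈ c₂.p₂ ↔ b ∈ c₁.p₂)) ∧
    ∃ (η : ↥(RE A E₂)) (e : ℕ), IsUnit η ∧ 0 < e ∧ reHom h12 A w₁ = η * w₂ ^ e := by
  haveI : NeZero (M * q) := ⟨mul_ne_zero hS₁.M_ne_zero hS₁.q_prime.ne_zero⟩
  have hq0 : q ≠ 0 := hS₁.q_prime.ne_zero
  refine ⟨fun b hb => ?_, fun b b' hbb' => ?_, fun b b' hbb' => ?_,
    exists_unif h12 hS₂.dvr hS₁.unif hS₂.unif⟩
  · have h := levelHom_mem_chartAlg h12 (A := A) hb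
    rwa [levelHom_xE] at h
  · exact cut_iff_inf h12 hS₁.dvr hS₂.dvr hS₁.unif hS₂.unif hV₁ hV₂ hq0 hS₁.lies_over
      (fun b => hc₁.cut₁ b) (fun b => hc₂.cut₁ b) b b' hbb'
  · exact cut_iff_zero h12 hS₁.dvr hS₂.dvr hS₁.unif hS₂.unif hV₁ hV₂ hW₁ hW₂ hq0 hS₁.lies_over
      (fun b => hc₁.cut₂ b) (fun b => hc₂.cut₂ b) b b' hbb'

/-- **2-LEVEL MODEL**: the two semistable finite charts, cut by the Gauss valuations and the
Fricke involutions, with the fields `ctx₁`, `map_mem`, `comp₁`, `comp₂`, `unif` of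
`H704.CoreOut.WildFrame` and the `ChartCtx` at the upper level. -/
theorem exists_twoLevelModel (hS₁ : Setting A E₁ M q w₁) (hS₂ : Setting A E₂ M q w₂)
    (hAux : Fermat.Agent.S35.G.HasAux M q) :
    ∃ (V₁ : ValuationSubring ↥(FE E₁ (M * q))) (V₂ : ValuationSubring ↥(FE E₂ (M * q)))
      (W₁ : ↥(FE E₁ (M * q)) ≃ₐ[↥E₁] ↥(FE E₁ (M * q)))
      (W₂ : ↥(FE E₂ (M * q)) ≃ₐ[↥E₂] ↥(FE E₂ (M * q)))
      (c₁ : Fermat.Agent.A2.SSChart w₁ (chartAlg A E₁ (M * q) (xE E₁ M q)))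
      (c₂ : Fermat.Agent.A2.SSChart w₂ (chartAlg A E₂ (M * q) (xE E₂ M q))),
      IsVinf A E₁ (M * q) V₁ ∧ IsVinf A E₂ (M * q) V₂ ∧
      IsFricke E₁ (M * q) W₁ ∧ IsFricke E₂ (M * q) W₂ ∧
      Fermat.Agent.S35.G.CutBy w₁ (chartAlg A E₁ (M * q) (xE E₁ M q)) c₁ V₁
        (V₁.comap (W₁ : ↥(FE E₁ (M * q)) →+* ↥(FE E₁ (M * q)))) ∧
      Fermat.Agent.S35.G.CutBy w₂ (chartAlg A E₂ (M * q) (xE E₂ M q)) c₂ V₂
        (V₂.comap (W₂ : ↥(FE E₂ (M * q)) →+* ↥(FE E₂ (M * q)))) ∧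
      Fermat.Agent.A2.Alg.ChartCtx (↥E₁) w₁ (xE E₁ M q) (chartAlg A E₁ (M * q) (xE E₁ M q)) ∧
      Fermat.Agent.A2.Alg.ChartCtx (↥E₂) w₂ (xE E₂ M q) (chartAlg A E₂ (M * q) (xE E₂ M q)) ∧
      (∀ b ∈ chartAlg A E₁ (M * q) (xE E₁ M q),
          levelHom h12 (M * q) b ∈ chartAlg A E₂ (M * q) (xE E₂ M q)) ∧
      (∀ (b : chartAlg A E₁ (M * q) (xE E₁ M q)) (b' : chartAlg A E₂ (M * q) (xE E₂ M q)),
          (b' : ↥(FE E₂ (M * q))) = levelHom h12 (M * q) (b : ↥(FE E₁ (M * q))) →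
          (b' ∈ c₂.p₁ ↔ b ∈ c₁.p₁)) ∧
      (∀ (b : chartAlg A E₁ (M * q) (xE E₁ M q)) (b' : chartAlg A E₂ (M * q) (xE E₂ M q)),
          (b' : ↥(FE E₂ (M * q))) = levelHom h12 (M * q) (b : ↥(FE E₁ (M * q))) →
          (b' ∈ c₂.p₂ ↔ b ∈ c₁.p₂)) ∧
      ∃ (η : ↥(RE A E₂)) (e : ℕ), IsUnit η ∧ 0 < e ∧ reHom h12 A w₁ = η * w₂ ^ e := by
  have hN : M * q ≠ 0 := mul_ne_zero hS₁.M_ne_zero hS₁.q_prime.ne_zero
  obtain ⟨V₁, hV₁⟩ := H553.vinfExists A E₁ (M * q) hN hS₁.dvr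
  obtain ⟨V₂, hV₂⟩ := H553.vinfExists A E₂ (M * q) hN hS₂.dvr
  obtain ⟨W₁, hW₁⟩ := H751.frickeExists E₁ (M * q) hN
  obtain ⟨W₂, hW₂⟩ := H751.frickeExists E₂ (M * q) hN
  obtain ⟨c₁, hc₁⟩ := exists_chart hS₁ hAux hV₁ hW₁
  obtain ⟨c₂, hc₂⟩ := exists_chart hS₂ hAux hV₂ hW₂
  obtain ⟨h1, h2, h3, h4⟩ := twoLevelModel h12 hS₁ hS₂ hV₁ hV₂ hW₁ hW₂ c₁ c₂ hc₁ hc₂
  exact ⟨V₁, V₂, W₁, W₂, c₁, c₂, hV₁, hV₂, hW₁, hW₂, hc₁, hc₂, chartCtx hS₁, chartCtx hS₂,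
    h1, h2, h3, h4⟩

end Two

end Fermat.Agent.Ribet.H49.TLM

end
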